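import Mathlib
import Fermat.Agent.LT.T7.H558.FactDownSpec

/-!
# Row LT, tower T7, leaf T7.L2.1.C2.7.7.4 (FD.4) `SuppOutC558` (helper221, registry 2639)

OFF-MAIN.  ADDITIVE (new names only, suffix `221`).  Spec: `T7/H558/FactDownSpec.lean`
(helper558@b6c4c8a4b, sha256 8043f526), byte-identical copy.

    suppOutC221 (K) : H558.SuppOutC558 K        (VERBATIM, unconditional)

Proof.  `twTerm r id φ γ x = ∑' m : ℤ, φ (x⁻¹ γ x rᵐ)` (`(id).onG x = x`); a non-zero `tsum` has a
non-zero term; `pure305 S f₀ F h ≠ 0` gives `OutT305 S h`; `rᵐ` is trivial at the finite places,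
so the components of `x⁻¹ γ x rᵐ` and of its inverse at `v` are those of `x⁻¹ γ x`.
-/

set_option autoImplicit false

open AutomorphicForm IsDedekindDomain NumberField MeasureTheory

noncomputable section

namespace Fermat.Agent.LT.T7.H221

open Fermat.Agent.LT.H556 Fermat.Agent.LT.H556.A0 Fermat.Agent.LT.T7 Fermat.Agent.LT.T7.H305

variable {K : Type} [Field K] [NumberField K]

/-- `finComp v g` is the matrix of `finGL305 v g`. -/
theorem finComp_eq_finGL221 (v : HeightOneSpectrum (𝓞 K)) (g : G K) :
    finComp v g = ((finGL305 v g : GL (Fin 2) (v.adicCompletion K)) :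
      Matrix (Fin 2) (Fin 2) (v.adicCompletion K)) := rfl

/-- An element which is trivial at `v` has trivial component at `v`. -/
theorem finGL_eq_one_of_triv221 (v : HeightOneSpectrum (𝓞 K)) (r : G K) (h : TrivAtFin v r) :
    finGL305 v r = 1 := by
  apply Units.ext
  rw [← finComp_eq_finGL221]
  exact h

/-- Integrality at `v` depends on the component at `v` only. -/
theorem isIntegralAt_congr221 (v : HeightOneSpectrum (𝓞 K)) (g h : G K)
    (hgh : finGL305 v g = finGL305 v h) : IsIntegralAt v g ↔ IsIntegralAt v h := by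
  unfold IsIntegralAt
  rw [finComp_eq_finGL221, finComp_eq_finGL221, hgh]

/-- The trivial adelic automorphism acts trivially on `GL₂(𝔸_K)`. -/
theorem onG_id221 (x : G K) : (T5.AdelicAut.id K).onG x = x := by
  apply Units.ext
  ext i j
  rfl

/-- `Out_T` is stable under right multiplication by an element which is trivial at the finite
places (both directions). -/
theorem outT_mul_triv_iff221 (T : Finset (HeightOneSpectrum (𝓞 K))) (h z : G K)
    (hz : ∀ v : HeightOneSpectrum (𝓞 K), TrivAtFin v z) :
    OutT305 T (h * z) ↔ OutT305 T h := by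
  have key : ∀ v : HeightOneSpectrum (𝓞 K),
      finGL305 v (h * z) = finGL305 v h ∧ finGL305 v (h * z)⁻¹ = finGL305 v h⁻¹ := by
    intro v
    have hzv : finGL305 v z = 1 := finGL_eq_one_of_triv221 v z (hz v)
    constructor
    · rw [map_mul, hzv, mul_one]
    · rw [mul_inv_rev, map_mul, map_inv, hzv, inv_one, one_mul]
  constructor
  · intro hout v hv
    exact ⟨(isIntegralAt_congr221 v _ _ (key v).1).1 (hout v hv).1,
      (isIntegralAt_congr221 v _ _ (key v).2).1 (hout v hv).2⟩
  · intro hout v hv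
    exact ⟨(isIntegralAt_congr221 v _ _ (key v).1).2 (hout v hv).1,
      (isIntegralAt_congr221 v _ _ (key v).2).2 (hout v hv).2⟩

/-- The powers of an element which is trivial at the finite places are trivial there. -/
theorem trivAtFin_zpow221 (r : G K) (hr : ∀ v : HeightOneSpectrum (𝓞 K), TrivAtFin v r)
    (m : ℤ) (v : HeightOneSpectrum (𝓞 K)) : TrivAtFin v (r ^ m) := by
  have h1 : finGL305 v (r ^ m) = 1 := by
    rw [map_zpow, finGL_eq_one_of_triv221 v r (hr v), one_zpow]
  show finComp v (r ^ m) = 1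
  rw [finComp_eq_finGL221, h1]
  rfl

/-- A non-zero value of the pure tensor: the argument lies in `Out_T`. -/
theorem outT_of_pure_ne_zero221 (T : Finset (HeightOneSpectrum (𝓞 K)))
    (f₀ : ∀ v : HeightOneSpectrum (𝓞 K), GL (Fin 2) (v.adicCompletion K) → ℂ)
    (F : InfinitePlace K → GL (Fin 2) ℂ → ℂ) (h : G K) (hne : pure305 T f₀ F h ≠ 0) :
    OutT305 T h := by
  by_contra hno
  apply hne
  unfold pure305
  rw [if_neg hno]

/-- **LEAF FD.4 = SUPP-OUT** (`H558.SuppOutC558`, VERBATIM). -/
theorem suppOutC221 (K : Type) [Field K] [NumberField K] : H558.SuppOutC558 K := by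
  intro r hr S f₀ F γ x hne
  have h1 : ∃ m : ℤ, pure305 S f₀ F
      (x⁻¹ * T5.ratG γ * (T5.AdelicAut.id K).onG x * r ^ m) ≠ 0 := by
    by_contra hcon
    simp only [not_exists, ne_eq, not_not] at hcon
    apply hne
    show (∑' m : ℤ, pure305 S f₀ F
      (x⁻¹ * T5.ratG γ * (T5.AdelicAut.id K).onG x * r ^ m)) = 0
    simp only [hcon]
    exact tsum_zero
  obtain ⟨m, hm⟩ := h1
  rw [onG_id221] at hm
  have hout : OutT305 S (x⁻¹ * T5.ratG γ * x * r ^ m) := outT_of_pure_ne_zero221 S f₀ F _ hm
  exact (outT_mul_triv_iff221 S _ _ (trivAtFin_zpow221 r hr.1 m)).1 hout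

end Fermat.Agent.LT.T7.H221

end
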